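import Mathlib
import Fermat.Agent.LT.T7.H751.FactDownQSpec
import Fermat.Agent.LT.T7.H194.Orb.SuppTop
import Fermat.Agent.LT.T7.H194.Orb.IntegAbs

/-!
# Row LT, tower T7, node Q2.7.7, leaf FDQ.8 `ArchIntblRC751` (helper560, registry 2702)

OFF-MAIN.  The frozen Prop is `Fermat.Agent.LT.T7.H751.ArchIntblRC751` of helper751's
`T7/H751/FactDownQSpec.lean` (sha256 aa280353, vendored byte-identical with its closure).
Proved here with no hole: `archIntblRC560 : H751.ArchIntblRC751`.

The proof is the proof of helper194 for `GL₂(ℂ)` (`archIntegrable194`), with `ℝ` in the place of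
`ℂ`: the two Mathlib-only assets of helper194 are stated for every topological field
(`Orb/SuppTop.lean`, `exists_compact_conj194`: closed orbits of regular elements, no
diagonalisation) and for every locally compact second countable group
(`Orb/IntegAbs.lean`, `integrable_mul_cut194`: Tonelli), byte-identical copies of
origin/helper194 (sha256 a277fc19, 3a70f0dc, a71e5879).
-/

set_option autoImplicit false
set_option linter.unusedSectionVars false
set_option linter.unusedVariables false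
set_option linter.style.haveILetI false

open MeasureTheory

noncomputable section

namespace Fermat.Agent.LT.T7.H560

open Fermat.Agent.LT Fermat.Agent.LT.T7 Fermat.Agent.LT.T7.H305 Fermat.Agent.LT.T7.H194

/-! ## `GL₂(ℝ)` -/

theorem secondCountable_GL2R560 : SecondCountableTopology (GL (Fin 2) ℝ) := by
  have : SecondCountableTopology (Matrix (Fin 2) (Fin 2) ℝ) :=
    inferInstanceAs (SecondCountableTopology (Fin 2 → Fin 2 → ℝ))
  have : SecondCountableTopology (Matrix (Fin 2) (Fin 2) ℝ)ᵐᵒᵖ :=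
    MulOpposite.opHomeomorph.symm.secondCountableTopology
  exact (Units.isEmbedding_embedProduct (M := Matrix (Fin 2) (Fin 2) ℝ)).secondCountableTopology

theorem locallyCompact_GL2R560 : LocallyCompactSpace (GL (Fin 2) ℝ) := by
  have : LocallyCompactSpace (Matrix (Fin 2) (Fin 2) ℝ) :=
    inferInstanceAs (LocallyCompactSpace (Fin 2 → Fin 2 → ℝ))
  exact (Units.isClosedEmbedding_embedProduct (α := Matrix (Fin 2) (Fin 2) ℝ)).locallyCompactSpace

/-- The centraliser is closed (any Hausdorff topological group). -/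
theorem isClosed_cent560 {H : Type} [Group H] [TopologicalSpace H] [IsTopologicalGroup H]
    [T2Space H] (γ : H) : IsClosed ((cent305 γ : Subgroup H) : Set H) := by
  have hc : Continuous (fun x : H => x⁻¹ * γ * x) :=
    (continuous_inv.mul continuous_const).mul continuous_id
  exact isClosed_eq hc continuous_const

theorem mem_cent_iff560 {H : Type} [Group H] (γ x : H) :
    x ∈ cent305 γ ↔ x⁻¹ * γ * x = γ := Iff.rfl

/-! ## Integrability -/

/-- **The cut-off integrand at the real place is integrable.** -/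
theorem archIntegrableR560 (γ : GL (Fin 2) ℝ) (hγ : T6.IsReg γ)
    (μr : @Measure (GL (Fin 2) ℝ) (borel _)) (hμr : @Measure.IsHaarMeasure _ _ _ (borel _) μr)
    (μT : @Measure (cent305 γ) (borel _)) (hμT : @Measure.IsHaarMeasure _ _ _ (borel _) μT)
    (β : GL (Fin 2) ℝ → ℝ) (hβ : IsCut305 γ μT β)
    (F : GL (Fin 2) ℝ → ℂ) (hF : Continuous F) (hFc : HasCompactSupport F)
    (z : GL (Fin 2) ℝ) (hz : ∀ x : GL (Fin 2) ℝ, z * x = x * z) :
    @Integrable _ _ _ _ (borel _)
      (fun y : GL (Fin 2) ℝ => F (y⁻¹ * (γ * z) * y) * ((β y : ℝ) : ℂ)) μr := by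
  letI : MeasurableSpace (GL (Fin 2) ℝ) := borel _
  haveI : BorelSpace (GL (Fin 2) ℝ) := ⟨rfl⟩
  letI : MeasurableSpace (cent305 γ) := borel _
  haveI : BorelSpace (cent305 γ) := ⟨rfl⟩
  haveI := secondCountable_GL2R560
  haveI := locallyCompact_GL2R560
  haveI : μr.IsHaarMeasure := hμr
  haveI : μT.IsHaarMeasure := hμT
  haveI : SigmaCompactSpace (cent305 γ) := (isClosed_cent560 γ).sigmaCompactSpace
  obtain ⟨hβc, hβ0, hβ1⟩ := hβ
  -- the support
  have hdisc : (γ : Matrix (Fin 2) (Fin 2) ℝ).trace ^ 2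
      - 4 * (γ : Matrix (Fin 2) (Fin 2) ℝ).det ≠ 0 := (isUnit_iff_ne_zero.1 hγ)
  have hKc : IsCompact ((fun h : GL (Fin 2) ℝ => h * z⁻¹) '' tsupport F) :=
    hFc.isCompact.image (continuous_id.mul continuous_const)
  obtain ⟨C, hC, hsupp⟩ := exists_compact_conj194 γ hdisc hKc
  obtain ⟨M, hM⟩ := hF.bounded_above_of_compact_support hFc
  have hΨc : Continuous (fun y : GL (Fin 2) ℝ => F (y⁻¹ * (γ * z) * y)) :=
    hF.comp ((continuous_inv.mul continuous_const).mul continuous_id)
  refine integrable_mul_cut194 (cent305 γ) μr μT hβc.measurable hβ0 hβ1 hC hΨc.measurable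
    (M := M) (fun y => hM _) ?_
  intro y hy
  have h1 : y⁻¹ * (γ * z) * y ∈ tsupport F := subset_tsupport F hy
  have h2 : y⁻¹ * γ * y ∈ (fun h : GL (Fin 2) ℝ => h * z⁻¹) '' tsupport F := by
    refine ⟨y⁻¹ * (γ * z) * y, h1, ?_⟩
    show y⁻¹ * (γ * z) * y * z⁻¹ = y⁻¹ * γ * y
    have e : y⁻¹ * (γ * z) * y = y⁻¹ * γ * y * z := by
      calc y⁻¹ * (γ * z) * y = y⁻¹ * γ * (z * y) := by simp only [mul_assoc]
        _ = y⁻¹ * γ * (y * z) := by rw [hz y]
        _ = y⁻¹ * γ * y * z := by simp only [mul_assoc]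
    rw [e, mul_inv_cancel_right]
  obtain ⟨t, ht, c, hc, hyc⟩ := hsupp y h2
  exact ⟨t, (mem_cent_iff560 γ t).2 ht, c, hc, hyc⟩

/-- **LEAF FDQ.8 = ARCH-INTBL (`GL₂(ℝ)`), unconditional.** -/
theorem archIntblRC560 : H751.ArchIntblRC751 :=
  fun μr hμr F hF hFc γ₀ hγ z hz μT hμT β hβ =>
    archIntegrableR560 γ₀ hγ μr hμr μT hμT β hβ F hF hFc z hz

end Fermat.Agent.LT.T7.H560

end
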