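import Mathlib
import Fermat.Agent.LT.T7.H193.NatMatchSpec

/-!
# Row LT, tower T7, node T7.L2.1, leaf RT.2 `FibCardC` (helper560, registry 2580)

OFF-MAIN.  The frozen Prop is `Fermat.Agent.LT.T7.H193.FibCardC` of helper193's
`T7/H193/NatMatchSpec.lean` (vendored byte-identical with its closure).  Proved here with no
hole: `fibCardC560 (K K') : H193.FibCardC K K'`.

The proof.  For every extension `K' / K` of number fields and every infinite place `v` of `K`:
`∑_{w ∣ v} mult w = mult v · [K' : K]` (`sum_mult_fib560b`, from Mathlib
`InfinitePlace.sum_inertiaDeg_eq_finrank` and `mult_mul_finrank`).  If `v` is complex, every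
place over `v` is complex, all the multiplicities are `2`, and the fibre has `[K' : K]` elements
(`card_fib_of_isComplex560`; no Galois hypothesis is used).
-/

set_option autoImplicit false
set_option linter.unusedSectionVars false
set_option linter.style.haveILetI false

open IsDedekindDomain NumberField MeasureTheory

noncomputable section

namespace Fermat.Agent.LT.T7.H560

open Fermat.Agent.LT.H556 Fermat.Agent.LT.H556.A0 Fermat.Agent.LT.T7

variable (K K' : Type) [Field K] [NumberField K] [Field K'] [NumberField K'] [Algebra K K']

open Classical in
/-- The sum of the multiplicities over the fibre of an infinite place. -/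
theorem sum_mult_fib560b (v : InfinitePlace K) :
    ∑ w' ∈ Finset.univ.filter (fun w' : InfinitePlace K' => w'.comap (algebraMap K K') = v),
        w'.mult = v.mult * Module.finrank K K' := by
  have h := NumberField.InfinitePlace.sum_inertiaDeg_eq_finrank K K' v
  rw [← h, Finset.mul_sum]
  have hset : (NumberField.InfinitePlace.placesOver K' v).toFinset
      = Finset.univ.filter (fun w' : InfinitePlace K' => w'.comap (algebraMap K K') = v) := by
    ext w'
    simp only [Set.mem_toFinset, Finset.mem_filter, Finset.mem_univ, true_and]
    constructor
    · intro hw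
      haveI : w'.LiesOver v := hw
      exact NumberField.InfinitePlace.LiesOver.comap_eq w' v
    · intro hw
      subst hw
      exact (⟨rfl⟩ : w'.LiesOver (w'.comap (algebraMap K K')))
  rw [hset]
  refine Finset.sum_congr rfl fun w' hw' => ?_
  have hw : w'.comap (algebraMap K K') = v := (Finset.mem_filter.mp hw').2
  subst hw
  haveI : w'.LiesOver (w'.comap (algebraMap K K')) := ⟨rfl⟩
  rw [NumberField.InfinitePlace.inertiaDeg_eq_finrank,
    NumberField.InfinitePlace.mult_mul_finrank]

open Classical in
/-- A complex place of `K` has exactly `[K' : K]` places of `K'` over it. -/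
theorem card_fib_of_isComplex560 {v : InfinitePlace K} (hv : v.IsComplex) :
    Nat.card {w : InfinitePlace K' // w.comap (algebraMap K K') = v} = Module.finrank K K' := by
  have h := sum_mult_fib560b K K' v
  have h2 : ∀ w' ∈ Finset.univ.filter
      (fun w' : InfinitePlace K' => w'.comap (algebraMap K K') = v), w'.mult = 2 := by
    intro w' hw'
    have hw : w'.comap (algebraMap K K') = v := (Finset.mem_filter.mp hw').2
    apply NumberField.InfinitePlace.IsComplex.mult_eq_two
    apply NumberField.InfinitePlace.IsComplex.of_comap (algebraMap K K')
    rw [hw]
    exact hv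
  rw [Finset.sum_congr rfl h2, Finset.sum_const, hv.mult_eq_two, smul_eq_mul] at h
  have h3 : (Finset.univ.filter
      (fun w' : InfinitePlace K' => w'.comap (algebraMap K K') = v)).card
      = Module.finrank K K' := by omega
  rw [← h3, Nat.card_eq_fintype_card, Fintype.card_subtype]

/-- **LEAF RT.2 = FIB-CARD.** -/
theorem fibCardC560 : H193.FibCardC K K' := by
  intro ℓ hcyc htc v
  rw [card_fib_of_isComplex560 K K' (htc v), hcyc.degree]

end Fermat.Agent.LT.T7.H560

end
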